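/-
PROJECT H (S17), helper7: THE RATIONAL FRAME of `X₀(N)` for Part B (concrete layer, file C0).

For `g` with `RiemannHyp ℚ̄ ℚ̄(X₀(N)) g` and `δ ≥ 2g + 1` there is a basis `f 0 = 1, f 1, …, f n`
of `L(δ ∞)` consisting of `G_ℚ`-FIXED (= rational) functions which is a model in the sense of
`Model/Embed` (no base points, separates points and tangent vectors).

Construction: `V := L(δ∞)` is `G_ℚ`-stable; `V₁ := V ∩ ker(c₀)`, `c₀` the constant `q`-coefficient,
is `G_ℚ`-stable of codimension one and does not contain `1`; a fixed basis of `V₁`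
(`Dict/QStructure.exists_fixed_basis`) together with `1` is the frame.
-/
import Mathlib
import Fermat.Agent.S17.Dict.QStructure
import Fermat.Agent.S17.Model.EmbedRR
import Fermat.Agent.S18.A.Instances

set_option autoImplicit false
set_option linter.unusedSectionVars false

noncomputable section

namespace Fermat.Agent.S17.B.Frame

open AlgebraicCurve AlgebraicCurve.SemilinearAut ModularCurve Module
open Fermat.Agent.S18.NonSpecial Fermat.Agent.S17.Model.Lift Fermat.Agent.S17.Model.Embed
open Fermat.Agent.S17.Dict.QStructure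

local notation "Kb" => AlgebraicClosure ℚ
local notation "GQ" => (AlgebraicClosure ℚ ≃ₐ[ℚ] AlgebraicClosure ℚ)

variable (N : ℕ) [NeZero N]

/-- the Galois action on `ℚ̄(X₀(N))`, as semilinear automorphisms -/
abbrev gal (σ : GQ) : SemilinearAut Kb (modularFunctionFieldBar N) :=
  arithmeticGalois (modularFunctionFieldFull N) σ

/-- the divisor `δ ∞` -/
def dOO (δ : ℕ) : Divisor Kb (modularFunctionFieldBar N) := Finsupp.single (oo N) (δ : ℤ)

theorem gal_smul_dOO (σ : GQ) (δ : ℕ) : gal N σ • dOO N δ = dOO N δ :=
  smul_single_oo N σ _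

theorem dOO_nonneg (δ : ℕ) : 0 ≤ dOO N δ := by
  classical
  intro v
  unfold dOO
  rw [Finsupp.single_apply]
  split_ifs
  · show (0 : ℤ) ≤ (δ : ℤ)
    exact_mod_cast Nat.zero_le δ
  · exact le_rfl

/-- **the rational frame**: a `G_ℚ`-fixed basis of `L(δ∞)` beginning with `1` which is a model -/
structure RatFrame (δ : ℕ) where
  /-- the projective dimension -/
  n : ℕ
  /-- the coordinate functions -/
  f : Fin (n + 1) → modularFunctionFieldBar N
  model : IsModel f (dOO N δ)
  linInd : LinearIndependent Kb f
  f_zero : f 0 = 1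
  fixed : ∀ (σ : GQ) (j : Fin (n + 1)), gal N σ • f j = f j

/-- the constant `q`-coefficient functional -/
def c0 : modularFunctionFieldBar N →ₗ[Kb] Kb :=
  Fermat.Agent.S30.Descent.Cap.coeffLin (modularFunctionFieldBar N) 0

theorem c0_gal (σ : GQ) (x : modularFunctionFieldBar N) : c0 N (gal N σ • x) = σ (c0 N x) := by
  unfold c0
  rw [Fermat.Agent.S30.Descent.Cap.coeffLin_apply, Fermat.Agent.S30.Descent.Cap.coeffLin_apply]
  exact coeff_arithmeticGalois_smul (modularFunctionFieldFull N) σ x 0

theorem c0_one : c0 N 1 = 1 := by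
  unfold c0
  rw [Fermat.Agent.S30.Descent.Cap.coeffLin_apply]
  show ((1 : LaurentSeries Kb)).coeff 0 = 1
  simp

theorem exists_ratFrame {g : ℕ} (hR : RiemannHyp Kb (modularFunctionFieldBar N) g) {δ : ℕ}
    (hδ : 2 * g + 1 ≤ δ) : Nonempty (RatFrame N δ) := by
  classical
  have := Fermat.Agent.S18.A.Instances.hasPrincipalDivisors_bar N
  have hx := Fermat.Agent.S18.A.Instances.isFF_jgen N
  have hsep := Fermat.Agent.S18.A.Instances.isSeparable_jgen N
  set V : Submodule Kb (modularFunctionFieldBar N) := riemannRochSpace (dOO N δ) with hV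
  have : Module.Finite Kb V := hR.finite _
  have h1V : (1 : modularFunctionFieldBar N) ∈ V := one_mem_riemannRochSpace (dOO_nonneg N δ)
  set V₁ : Submodule Kb (modularFunctionFieldBar N) := V ⊓ LinearMap.ker (c0 N) with hV₁
  have : FiniteDimensional Kb V₁ :=
    Submodule.finiteDimensional_of_le (inf_le_left : V₁ ≤ V)
  have hstab : ∀ σ : GQ, ∀ u ∈ V₁, gal N σ • u ∈ V₁ := by
    intro σ u hu
    refine ⟨smul_mem_rr_of_stable (gal N σ) (gal_smul_dOO N σ δ) hu.1, ?_⟩
    have h0 : c0 N u = 0 := LinearMap.mem_ker.mp hu.2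
    show gal N σ • u ∈ LinearMap.ker (c0 N)
    rw [LinearMap.mem_ker, c0_gal, h0, map_zero]
  obtain ⟨v, hv⟩ := exists_fixed_basis (L := Kb) (modularFunctionFieldFull N) V₁ hstab
  -- the family
  let w : Fin (finrank Kb V₁) → modularFunctionFieldBar N := fun j => ((v j : V₁) : _)
  have hwli : LinearIndependent Kb w :=
    v.linearIndependent.map' V₁.subtype (Submodule.ker_subtype V₁)
  have hwspan : Submodule.span Kb (Set.range w) = V₁ := by
    have : Set.range w = V₁.subtype '' Set.range v := by
      rw [← Set.range_comp]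
      rfl
    rw [this, Submodule.span_image, v.span_eq, Submodule.map_top, Submodule.range_subtype]
  have h1not : (1 : modularFunctionFieldBar N) ∉ Submodule.span Kb (Set.range w) := by
    rw [hwspan]
    intro h
    have := LinearMap.mem_ker.mp h.2
    rw [c0_one] at this
    exact one_ne_zero this
  let f : Fin (finrank Kb V₁ + 1) → modularFunctionFieldBar N := Fin.cons 1 w
  have hfli : LinearIndependent Kb f := linearIndependent_finCons.mpr ⟨hwli, h1not⟩
  have hfspan : Submodule.span Kb (Set.range f) = V := by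
    rw [Fin.range_cons, Submodule.span_insert, hwspan]
    apply le_antisymm
    · refine sup_le ?_ inf_le_left
      rw [Submodule.span_singleton_le_iff_mem]
      exact h1V
    · intro u hu
      rw [Submodule.mem_sup]
      refine ⟨c0 N u • (1 : modularFunctionFieldBar N),
        Submodule.smul_mem _ _ (Submodule.mem_span_singleton_self _),
        u - c0 N u • (1 : modularFunctionFieldBar N), ⟨?_, ?_⟩, by abel⟩
      · exact Submodule.sub_mem _ hu (Submodule.smul_mem _ _ h1V)
      · show u - c0 N u • (1 : modularFunctionFieldBar N) ∈ LinearMap.ker (c0 N)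
        rw [LinearMap.mem_ker, map_sub, map_smul, c0_one, smul_eq_mul, mul_one, sub_self]
  have hdeg : 2 * (g : ℤ) + 1 ≤ Divisor.degree (dOO N δ) := by
    unfold dOO
    rw [Divisor.degree_single, hR.deg_one]
    push_cast
    omega
  refine ⟨⟨_, f, Fermat.Agent.S17.Model.EmbedRR.isModel_of_span hx hsep hR hdeg f (fun j => hfli.ne_zero j) hfspan, hfli,
    Fin.cons_zero _ _, ?_⟩⟩
  intro σ j
  refine Fin.cases ?_ (fun i => ?_) j
  · show gal N σ • (1 : modularFunctionFieldBar N) = 1
    exact smul_one _
  · show gal N σ • w i = w i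
    exact hv σ i

end Fermat.Agent.S17.B.Frame
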